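/-
S34 / Program B' (helper60): the algebraic half of the bridge between "no ramification in
characteristic zero through the node" and the hypothesis `(U)` / `(N5)` of the node package
(`∃ k, q ^ k ∈ span {G'(x)}`).

Setting: `R = S[X]/(G)` (presented by `hsurj` + `hker`), `G` monic, `x` the class of `X`.

* `derivative_not_mem_of_unramified` (K1): if a prime `Q` of `R` has residue characteristic zero
  and is unramified over `S` in the ideal-theoretic sense `Q R_Q = (Q ∩ S) R_Q` (written without
  localisation: every `a ∈ Q` has a multiple `b * a ∈ (Q ∩ S) R` with `b ∉ Q`), then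
  `G'(x) ∉ Q`.  Elementary: no normality, no domain hypothesis, no different, no discriminant.
* `derivative_not_mem_of_separable` (K3): the same conclusion from separability of the image of
  `G` over any field through which `R → R/Q` factors.
* `exists_pow_mem_span_derivative` (K2): hence `q ^ k ∈ span {G'(x)}` for some `k`, as soon as
  every prime of `R` not containing `q` is of that kind.
* `exists_natCast_pow_mem_span_derivative`: the same for a prime number `q` which is a non-unit of
  the local ring `S` (the residue characteristics are then automatically zero).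

Mathlib only.
-/
import Mathlib

set_option autoImplicit false

open Polynomial

namespace Fermat.Agent.S34.H60

variable {S R : Type*} [CommRing S] [CommRing R] [Algebra S R]

/-- Elements of the extended ideal `P R` are the values at `x` of the polynomials with
coefficients in `P`, when `R = S[x]`. -/
theorem exists_poly_of_mem_map (x : R)
    (hsurj : Function.Surjective (aeval x : S[X] →ₐ[S] R)) (P : Ideal S) (y : R)
    (hy : y ∈ Ideal.map (algebraMap S R) P) :
    ∃ F : S[X], (∀ i, F.coeff i ∈ P) ∧ aeval x F = y := by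
  rw [Ideal.map] at hy
  induction hy using Submodule.span_induction with
  | mem y hy =>
    obtain ⟨s, hs, rfl⟩ := hy
    refine ⟨C s, fun i => ?_, by simp⟩
    rw [coeff_C]
    split_ifs
    · exact hs
    · exact P.zero_mem
  | zero => exact ⟨0, fun i => by simp, by simp⟩
  | add y z _ _ hy hz =>
    obtain ⟨F, hF, rfl⟩ := hy
    obtain ⟨F', hF', rfl⟩ := hz
    exact ⟨F + F', fun i => by rw [coeff_add]; exact P.add_mem (hF i) (hF' i), by simp⟩
  | smul r y _ hy =>
    obtain ⟨F, hF, rfl⟩ := hy
    obtain ⟨B, rfl⟩ := hsurj r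
    refine ⟨B * F, fun i => ?_, by simp⟩
    rw [coeff_mul]
    exact P.sum_mem fun c _ => P.mul_mem_left _ (hF _)

/-- (K3) If the image of `G` under `S → R → k` (`k` a field) is separable, then `G'(x)` does not
map to zero in `k`. -/
theorem derivative_not_mem_of_separable (G : S[X]) (x : R) (hGx : aeval x G = 0)
    {k : Type*} [Field k] (χ : R →+* k)
    (hsep : (G.map (χ.comp (algebraMap S R))).Separable) :
    χ (aeval x (derivative G)) ≠ 0 := by
  have h0 : eval₂ (RingHom.id k) (χ x) (G.map (χ.comp (algebraMap S R))) = 0 := by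
    rw [eval₂_map, RingHom.id_comp, ← hom_eval₂, ← aeval_def, hGx, map_zero]
  have h1 := hsep.eval₂_derivative_ne_zero (RingHom.id k) h0
  rwa [derivative_map, eval₂_map, RingHom.id_comp, ← hom_eval₂, ← aeval_def] at h1

/-- (K1) **Unramified primes do not contain `G'(x)`.**  `R = S[X]/(G)`, `Q` a prime of `R` of
residue characteristic zero with `Q R_Q = (Q ∩ S) R_Q`.  Then `G'(x) ∉ Q`. -/
theorem derivative_not_mem_of_unramified (G : S[X]) (hG : G.Monic) (x : R)
    (hsurj : Function.Surjective (aeval x : S[X] →ₐ[S] R))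
    (hker : ∀ p : S[X], aeval x p = 0 ↔ G ∣ p)
    (Q : Ideal R) [Q.IsPrime] (hchar : ∀ n : ℕ, n ≠ 0 → (n : R) ∉ Q)
    (hunr : ∀ a ∈ Q, ∃ b ∉ Q,
      b * a ∈ Ideal.map (algebraMap S R) (Q.comap (algebraMap S R))) :
    aeval x (derivative G) ∉ Q := by
  classical
  intro hJ
  -- notation
  set P : Ideal S := Q.comap (algebraMap S R) with hP
  let L := FractionRing (R ⧸ Q)
  let κ := FractionRing (S ⧸ P)
  let φR : R →+* L := (algebraMap (R ⧸ Q) L).comp (Ideal.Quotient.mk Q)
  have hφR : ∀ r : R, φR r = 0 ↔ r ∈ Q := by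
    intro r
    simp only [φR, RingHom.comp_apply]
    rw [map_eq_zero_iff _ (IsFractionRing.injective (R ⧸ Q) L), Ideal.Quotient.eq_zero_iff_mem]
  -- the map `S ⧸ P → L`
  let ι : S ⧸ P →+* L :=
    Ideal.Quotient.lift P (φR.comp (algebraMap S R)) (fun a ha => by
      rw [RingHom.comp_apply, hφR]
      exact ha)
  have hι : Function.Injective ι := by
    rw [injective_iff_map_eq_zero]
    intro a ha
    obtain ⟨s, rfl⟩ := Ideal.Quotient.mk_surjective a
    rw [Ideal.Quotient.lift_mk, RingHom.comp_apply, hφR] at ha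
    exact Ideal.Quotient.eq_zero_iff_mem.mpr ha
  let j : κ →+* L := IsFractionRing.lift hι
  let ψ : S →+* κ := (algebraMap (S ⧸ P) κ).comp (Ideal.Quotient.mk P)
  have hjψ : j.comp ψ = φR.comp (algebraMap S R) := by
    ext s
    simp only [j, ψ, RingHom.comp_apply]
    rw [IsFractionRing.lift_algebraMap, Ideal.Quotient.lift_mk, RingHom.comp_apply]
  have hψ : ∀ s : S, ψ s = 0 ↔ s ∈ P := by
    intro s
    simp only [ψ, RingHom.comp_apply]
    rw [map_eq_zero_iff _ (IsFractionRing.injective (S ⧸ P) κ), Ideal.Quotient.eq_zero_iff_mem]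
  -- characteristic zero
  have hκ0 : CharZero κ := by
    refine charZero_of_inj_zero fun n hn => ?_
    by_contra hn0
    have h1 : ψ (n : S) = 0 := by rw [map_natCast]; exact hn
    rw [hψ, hP, Ideal.mem_comap, map_natCast] at h1
    exact hchar n hn0 h1
  -- evaluation at `xbar`
  set xb : L := φR x with hxb
  have hev : ∀ F : S[X], eval₂ j xb (F.map ψ) = φR (aeval x F) := by
    intro F
    rw [eval₂_map, hjψ, aeval_def, hom_eval₂]
  have hevmap0 : ∀ F : S[X], (∀ i, F.coeff i ∈ P) → F.map ψ = 0 := by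
    intro F hF
    ext i
    rw [coeff_map, coeff_zero, hψ]
    exact hF i
  -- the minimal polynomial of `xbar` over `κ`
  let _ : Algebra κ L := j.toAlgebra
  have hGx : aeval x G = 0 := (hker G).mpr dvd_rfl
  have hGb : aeval xb (G.map ψ) = 0 := by
    rw [aeval_def]
    change eval₂ j xb (G.map ψ) = 0
    rw [hev, hGx, map_zero]
  have hGb' : aeval xb (derivative (G.map ψ)) = 0 := by
    rw [derivative_map, aeval_def]
    change eval₂ j xb ((derivative G).map ψ) = 0
    rw [hev, (hφR _).mpr hJ]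
  have hint : IsIntegral κ xb := ⟨G.map ψ, hG.map ψ, hGb⟩
  set g : κ[X] := minpoly κ xb with hg
  have hgirr : Irreducible g := minpoly.irreducible hint
  have hg0 : g ≠ 0 := hgirr.ne_zero
  have hgsep : g.Separable := hgirr.separable
  obtain ⟨u, hu⟩ : g ∣ G.map ψ := minpoly.dvd κ xb hGb
  have hgu : g ∣ u := by
    have h1 : g ∣ derivative (G.map ψ) := minpoly.dvd κ xb hGb'
    rw [hu, derivative_mul] at h1
    have h2 : g ∣ derivative g * u := by
      have h3 : g ∣ g * derivative u := dvd_mul_right _ _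
      exact (dvd_add_left h3).mp h1
    exact hgsep.dvd_of_dvd_mul_left h2
  obtain ⟨u₁, hu₁⟩ := hgu
  -- clear denominators in `g`
  obtain ⟨d, hd, hdg⟩ := IsLocalization.integerNormalization_spec (nonZeroDivisors (S ⧸ P)) g
  obtain ⟨g₀, hg₀⟩ := Polynomial.map_surjective (Ideal.Quotient.mk P)
    Ideal.Quotient.mk_surjective (IsLocalization.integerNormalization (nonZeroDivisors (S ⧸ P)) g)
  have hg₀ψ : g₀.map ψ = C (algebraMap (S ⧸ P) κ d) * g := by
    rw [← Polynomial.map_map, hg₀, hdg, Algebra.smul_def]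
    rfl
  have hd0 : algebraMap (S ⧸ P) κ d ≠ 0 := by
    intro h
    rw [map_eq_zero_iff _ (IsFractionRing.injective (S ⧸ P) κ)] at h
    exact nonZeroDivisors.ne_zero hd h
  -- `g₀(x) ∈ Q`
  have hg₀Q : aeval x g₀ ∈ Q := by
    rw [← hφR, ← hev, hg₀ψ, eval₂_mul]
    have : eval₂ j xb g = 0 := by
      have := minpoly.aeval κ xb
      rwa [aeval_def] at this
    rw [this, mul_zero]
  -- use the hypothesis
  obtain ⟨b, hbQ, hb⟩ := hunr _ hg₀Q
  obtain ⟨B, rfl⟩ := hsurj b
  obtain ⟨F, hF, hFe⟩ := exists_poly_of_mem_map x hsurj P _ hb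
  have hdiv : G ∣ B * g₀ - F := by
    rw [← hker, map_sub, map_mul, hFe, sub_self]
  obtain ⟨H, hH⟩ := hdiv
  have hmap : B.map ψ * (C (algebraMap (S ⧸ P) κ d) * g) = g * (g * u₁) * H.map ψ := by
    have h1 := congrArg (Polynomial.map ψ) hH
    rw [Polynomial.map_sub, Polynomial.map_mul, Polynomial.map_mul, hevmap0 F hF, sub_zero,
      hg₀ψ, hu, hu₁] at h1
    exact h1
  have hgB : g ∣ B.map ψ := by
    have h1 : g * (C (algebraMap (S ⧸ P) κ d) * B.map ψ) = g * (g * u₁ * H.map ψ) := by
      rw [← mul_assoc g (g * u₁), ← hmap]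
      ring
    have h2 := mul_left_cancel₀ hg0 h1
    have h3 : g ∣ C (algebraMap (S ⧸ P) κ d) * B.map ψ := ⟨u₁ * H.map ψ, by rw [h2]; ring⟩
    exact (IsUnit.dvd_mul_left (isUnit_C.mpr (isUnit_iff_ne_zero.mpr hd0))).mp h3
  apply hbQ
  rw [← hφR, ← hev]
  obtain ⟨v, hv⟩ := hgB
  rw [hv, eval₂_mul]
  have : eval₂ j xb g = 0 := by
    have := minpoly.aeval κ xb
    rwa [aeval_def] at this
  rw [this, zero_mul]

/-- (K2) **The hypothesis `(U)` of the node package.**  If every prime of `R = S[X]/(G)` not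
containing `q` has residue characteristic zero and is unramified over `S`, then a power of `q`
lies in `(G'(x))`. -/
theorem exists_pow_mem_span_derivative (q : S) (G : S[X]) (hG : G.Monic) (x : R)
    (hsurj : Function.Surjective (aeval x : S[X] →ₐ[S] R))
    (hker : ∀ p : S[X], aeval x p = 0 ↔ G ∣ p)
    (hchar : ∀ Q : Ideal R, Q.IsPrime → algebraMap S R q ∉ Q → ∀ n : ℕ, n ≠ 0 → (n : R) ∉ Q)
    (hunr : ∀ Q : Ideal R, Q.IsPrime → algebraMap S R q ∉ Q → ∀ a ∈ Q, ∃ b ∉ Q,
      b * a ∈ Ideal.map (algebraMap S R) (Q.comap (algebraMap S R))) :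
    ∃ k : ℕ, algebraMap S R q ^ k ∈ Ideal.span {aeval x (derivative G)} := by
  rw [← Ideal.mem_radical_iff, Ideal.radical_eq_sInf, Ideal.mem_sInf]
  rintro Q ⟨hle, hQ⟩
  by_contra hq
  have := hQ
  exact derivative_not_mem_of_unramified G hG x hsurj hker Q (hchar Q hQ hq) (hunr Q hQ hq)
    (hle (Ideal.subset_span rfl))

/-- The same with `(U)` supplied prime by prime in the raw form `G'(x) ∉ Q`. -/
theorem exists_pow_mem_span_of_forall_not_mem (q y : R)
    (h : ∀ Q : Ideal R, Q.IsPrime → q ∉ Q → y ∉ Q) :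
    ∃ k : ℕ, q ^ k ∈ Ideal.span {y} := by
  rw [← Ideal.mem_radical_iff, Ideal.radical_eq_sInf, Ideal.mem_sInf]
  rintro Q ⟨hle, hQ⟩
  by_contra hq
  exact h Q hQ hq (hle (Ideal.subset_span rfl))

/-- In a local ring in which the prime number `q` is not a unit, every integer prime to `q` is a
unit. -/
theorem isUnit_natCast_of_not_dvd [IsLocalRing S] (q : ℕ) (hq : q.Prime)
    (hqS : ¬ IsUnit (q : S)) (m : ℕ) (hm : ¬ q ∣ m) : IsUnit (m : S) := by
  have hcop : IsCoprime (m : ℤ) (q : ℤ) := by
    rw [Int.isCoprime_iff_gcd_eq_one, Int.gcd_natCast_natCast]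
    exact ((Nat.Prime.coprime_iff_not_dvd hq).mpr hm).symm
  obtain ⟨a, b, hab⟩ := hcop
  have h1 : ((a : S) * (m : S)) = 1 - (b : S) * (q : S) := by
    have := congrArg (Int.cast : ℤ → S) hab
    push_cast at this
    rw [← this]
    ring
  have h2 : IsUnit ((a : S) * (m : S)) := by
    rw [h1]
    apply IsLocalRing.isUnit_one_sub_self_of_mem_nonunits
    exact mul_mem_nonunits_right hqS
  exact isUnit_of_mul_isUnit_right h2

/-- (K2), convenience form: `q` a prime number, `S` local with `q` a non-unit.  The conclusion is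
literally the hypothesis `hU` of the node package. -/
theorem exists_natCast_pow_mem_span_derivative [IsLocalRing S] (q : ℕ) (hq : q.Prime)
    (hqS : ¬ IsUnit (q : S)) (G : S[X]) (hG : G.Monic) (x : R)
    (hsurj : Function.Surjective (aeval x : S[X] →ₐ[S] R))
    (hker : ∀ p : S[X], aeval x p = 0 ↔ G ∣ p)
    (hunr : ∀ Q : Ideal R, Q.IsPrime → (q : R) ∉ Q → ∀ a ∈ Q, ∃ b ∉ Q,
      b * a ∈ Ideal.map (algebraMap S R) (Q.comap (algebraMap S R))) :
    ∃ k : ℕ, (q : R) ^ k ∈ Ideal.span {aeval x (derivative G)} := by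
  have hqR : algebraMap S R (q : S) = (q : R) := map_natCast _ _
  have key := exists_pow_mem_span_derivative (q : S) G hG x hsurj hker ?_ ?_
  · rwa [hqR] at key
  · intro Q hQ hqQ n hn hnQ
    rw [hqR] at hqQ
    obtain ⟨e, m, hm, rfl⟩ := Nat.exists_eq_pow_mul_and_not_dvd hn q hq.ne_one
    have hmu : IsUnit (m : R) := by
      have := (isUnit_natCast_of_not_dvd (S := S) q hq hqS m hm).map (algebraMap S R)
      rwa [map_natCast] at this
    push_cast at hnQ
    have h1 : (q : R) ^ e ∈ Q := by
      rcases hQ.mem_or_mem hnQ with h | h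
      · exact h
      · exact absurd (Q.eq_top_of_isUnit_mem h hmu) hQ.ne_top
    exact hqQ (hQ.mem_of_pow_mem e h1)
  · intro Q hQ hqQ
    rw [hqR] at hqQ
    exact hunr Q hQ hqQ

end Fermat.Agent.S34.H60
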