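/-
S34 / Program B' (helper60): the modular instance of hypothesis `he` of
`forall_unramified_of_places`: at a level `N` without elliptic elements, every FINITE place `w`
of `F_{Nℓ}` (i.e. `j ∈ O_w`) has the same orders on `α(F_N)` as a place of `F_N`
(`e(w | α) = 1`, helper92's `S34.H92.ord_alpha_eq`).
-/
import Mathlib
import Fermat.Agent.S34.H92.UnramFinal
import Fermat.Agent.S18.H13.PrincDiv
import Fermat.Agent.S24.Residue

set_option autoImplicit false

open ModularCurve AlgebraicCurve Fermat.Agent.S24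

noncomputable section

namespace Fermat.Agent.S34.H60

/-- **`e = 1` at the finite places, in `ord` form.**  If `Γ₀(N)` has no elliptic element and
`w` is a place of `F_{Nℓ}` with `j ∈ O_w`, there is a place `v` of `F_N` with
`ord_v f = ord_w (α f)` for all `f`. -/
theorem exists_place_ord_alpha_eq (N ℓ : ℕ) [NeZero N] [NeZero ℓ]
    (hN : Fermat.Agent.S34.H92.NoElliptic N) (w : Place Kbar (FF (N * ℓ)))
    (hj : jgen (N * ℓ) ∈ w.toValuationSubring) :
    ∃ v : Place Kbar (FF N), ∀ f : FF N, v.ord f = w.ord (heckeAlphaBar Kbar N ℓ f) := by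
  have halg := Fermat.Agent.S18.H13.isAlgebraic_adjoin_jgen (N * ℓ)
  have hα := Fermat.Agent.S37.H87.heckeAlphaBarIntegral N ℓ
  rcases exists_center (jgen (N * ℓ)) w with h | ⟨c, hc⟩
  · have := H52.ord_nonneg_of_mem w hj
    omega
  · exact ⟨w.restrictAlong (heckeAlphaBar Kbar N ℓ) hα, fun f =>
      (Fermat.Agent.S34.H92.ord_alpha_eq N ℓ hN hα w c hc f).symm⟩

end Fermat.Agent.S34.H60
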