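/-
S34 / Program B' (helper60): **constant field extensions are unramified** — every place of a
function field `F/K` has a uniformiser in any form `F₀` of `F` over a smaller constant field
`K₀` (no enlargement of `K₀` needed).

Setting (as in `Fermat.Agent.S18.H61`): `K₀ ⊆ K` fields, `K` algebraic over `K₀`, of
characteristic zero, `F` a field over `K`, `F₀ ⊆ F` an intermediate field over `K₀`, `P` a place
of `F/K`.

* `exists_ord_eq_of_mem_adjoin_simple` : for `β ∈ K`, every nonzero element of `F₀(β)` has the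
  same order at `P` as some element of `F₀`.  (Proof: `V[β]`, `V = O_P ∩ F₀`, is monogenic over
  `V` with `G'(β)` a unit at `P`, so it is unramified there: `exists_nu_eq_of_monogenic`.)
* `exists_ord_eq_of_mem_closure` : the same for the nonzero elements of the compositum `F₀·K`.
* `exists_ord_eq_one_of_closure_eq_top` : if `F = F₀·K`, every place `P` of `F/K` has a
  uniformiser in `F₀`.
-/
import Mathlib
import Fermat.Prelude.Def_AlgebraicCurve_DivisorClassGroup
import Fermat.Agent.S24.Ord
import Fermat.Agent.S34.H60.MonoVal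

set_option autoImplicit false

open AlgebraicCurve IntermediateField Polynomial

noncomputable section

namespace Fermat.Agent.S34.H60

variable {k K : Type*} [Field k] [Field K] [Algebra k K] (K₀ : IntermediateField k K)
  {F : Type*} [Field F] [Algebra K F] (F₀ : IntermediateField K₀ F)

/-- **One step.**  Adjoining a constant `β ∈ K` to `F₀` does not change the set of orders at a
place of `F/K`. -/
theorem exists_ord_eq_of_mem_adjoin_simple [Algebra.IsAlgebraic K₀ K] [CharZero K]
    (P : Place K F) (β : K) (f : F) (hf : f ∈ (↥F₀)⟮algebraMap K F β⟯) (hf0 : f ≠ 0) :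
    ∃ t : F₀, t ≠ 0 ∧ P.ord (t : F) = P.ord f := by
  classical
  set W := P.toValuationSubring with hW
  set β' : F := algebraMap K F β with hβ'
  let V : ValuationSubring F₀ := W.comap (algebraMap F₀ F)
  have hV : ∀ t : F₀, t ∈ V ↔ (t : F) ∈ W := fun t => ValuationSubring.mem_comap
  -- the algebra structure `V → F`
  let _ : Algebra V F := ((algebraMap F₀ F).comp V.subtype).toAlgebra
  have hVF : ∀ v : V, algebraMap V F v = ((v : F₀) : F) := fun _ => rfl
  have : IsScalarTower V F₀ F := IsScalarTower.of_algebraMap_eq (fun _ => rfl)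
  have hinjVF : Function.Injective (algebraMap V F) := by
    intro a b hab
    rw [hVF, hVF] at hab
    exact Subtype.ext (Subtype.ext hab)
  -- the constants `K₀ → V`
  have hK₀V : ∀ a : K₀, algebraMap K₀ F₀ a ∈ V.toSubring := by
    intro a
    change algebraMap K₀ F₀ a ∈ V
    rw [hV]
    exact P.algebraMap_mem' (a : K)
  let ρ : K₀ →+* V := (algebraMap K₀ F₀).codRestrict V.toSubring hK₀V
  have hρ : (algebraMap V F).comp ρ = algebraMap K₀ F := by
    ext a
    rfl
  have hevρ : ∀ p : K₀[X], aeval β' (p.map ρ) = algebraMap K F (aeval β p) := by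
    intro p
    rw [aeval_def, eval₂_map, hρ, ← aeval_def, hβ', aeval_algebraMap_apply]
  -- the minimal polynomial of `β` over `K₀`
  have hchar : CharZero K₀ := (algebraMap K₀ K).charZero
  have hint : IsIntegral K₀ β := Algebra.IsIntegral.isIntegral β
  set h : K₀[X] := minpoly K₀ β with hh
  have hsep : h.Separable := (minpoly.irreducible hint).separable
  have hne : aeval β (derivative h) ≠ 0 := hsep.aeval_derivative_ne_zero (minpoly.aeval K₀ β)
  have hroot : aeval β' (h.map ρ) = 0 := by rw [hevρ, minpoly.aeval, map_zero]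
  have hderiv : aeval β' (derivative (h.map ρ)) = algebraMap K F (aeval β (derivative h)) := by
    rw [derivative_map, hevρ]
  have hder : aeval β' (derivative (h.map ρ)) ≠ 0 := by
    rw [hderiv]
    exact (_root_.map_ne_zero _).mpr hne
  have hder0 : P.ord (aeval β' (derivative (h.map ρ))) = 0 := by
    rw [hderiv]
    exact Fermat.Agent.S24.ord_algebraMap P hne
  have key := exists_nu_eq_of_monogenic (V := V) (F := F) hinjVF W P.ord
    (fun a b ha hb => P.ord_mul ha hb)
    (fun a ha => Fermat.Agent.S24.mem_iff_ord_nonneg P ha)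
    (fun v => (hV v).mp v.2) β' (P.algebraMap_mem' β) (h.map ρ) ((minpoly.monic hint).map ρ)
    hroot hder hder0
  -- elements of `F₀(β)`
  have hβint₀ : IsIntegral F₀ β' :=
    (hint.map (IsScalarTower.toAlgHom K₀ K F)).tower_top
  rw [← IntermediateField.mem_toSubalgebra,
    adjoin_simple_toSubalgebra_of_isAlgebraic hβint₀.isAlgebraic,
    Algebra.adjoin_singleton_eq_range_aeval] at hf
  obtain ⟨p, hp⟩ : ∃ p : (↥F₀)[X], aeval β' p = f := hf
  subst hp
  obtain ⟨s, hs, hsp⟩ := IsLocalization.integerNormalization_spec (nonZeroDivisors V) p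
  set p₀ := IsLocalization.integerNormalization (nonZeroDivisors V) p with hp₀
  have hs0 : (s : F₀) ≠ 0 := fun h0 => nonZeroDivisors.ne_zero hs (Subtype.ext h0)
  have hs0' : ((s : F₀) : F) ≠ 0 := fun h0 => hs0 (Subtype.ext h0)
  have hsp' : p₀.map (algebraMap V F₀) = C (s : F₀) * p := by
    rw [hsp, ← Polynomial.smul_eq_C_mul]
    rfl
  have hval : aeval β' p₀ = ((s : F₀) : F) * aeval β' p := by
    rw [aeval_def, IsScalarTower.algebraMap_eq V F₀ F, ← eval₂_map, hsp', ← aeval_def,
      map_mul, aeval_C]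
    rfl
  have ha0 : aeval β' p₀ ≠ 0 := by
    rw [hval]
    exact mul_ne_zero hs0' hf0
  obtain ⟨π, hπ0, hπ⟩ := key p₀ ha0
  have hπ0' : (π : F₀) ≠ 0 := fun h0 => hπ0 (Subtype.ext h0)
  have hπ0'' : ((π : F₀) : F) ≠ 0 := fun h0 => hπ0' (Subtype.ext h0)
  refine ⟨(π : F₀) / (s : F₀), div_ne_zero hπ0' hs0, ?_⟩
  rw [hVF, hval, P.ord_mul hs0' hf0] at hπ
  rw [IntermediateField.coe_div, Fermat.Agent.S24.ord_div P hπ0'' hs0', hπ]
  ring

/-- Finitely many constants: a field `F₁ ⊇ F₀` containing them, with the same orders at `P`. -/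
theorem exists_intermediateField_of_finset [Algebra.IsAlgebraic K₀ K] [CharZero K]
    (P : Place K F) (T : Finset K) :
    ∃ F₁ : IntermediateField K₀ F, F₀ ≤ F₁ ∧ (∀ c ∈ T, algebraMap K F c ∈ F₁) ∧
      ∀ f ∈ F₁, f ≠ 0 → ∃ t : F₀, t ≠ 0 ∧ P.ord (t : F) = P.ord f := by
  classical
  induction T using Finset.induction_on with
  | empty =>
    exact ⟨F₀, le_rfl, by simp, fun f hf hf0 =>
      ⟨⟨f, hf⟩, fun h => hf0 (congrArg Subtype.val h), rfl⟩⟩
  | insert β T hβ ih =>
    obtain ⟨F₁, hle, hT, hord⟩ := ih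
    refine ⟨IntermediateField.restrictScalars K₀ ((↥F₁)⟮algebraMap K F β⟯), ?_, ?_, ?_⟩
    · intro f hf
      rw [IntermediateField.mem_restrictScalars]
      exact IntermediateField.algebraMap_mem _ (⟨f, hle hf⟩ : F₁)
    · intro c hc
      rw [Finset.mem_insert] at hc
      rw [IntermediateField.mem_restrictScalars]
      rcases hc with rfl | hc
      · exact IntermediateField.mem_adjoin_simple_self _ _
      · exact IntermediateField.algebraMap_mem _ (⟨_, hT c hc⟩ : F₁)
    · intro f hf hf0
      rw [IntermediateField.mem_restrictScalars] at hf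
      obtain ⟨t₁, ht₁0, ht₁⟩ := exists_ord_eq_of_mem_adjoin_simple K₀ F₁ P β f hf hf0
      obtain ⟨t, ht0, ht⟩ := hord t₁ t₁.2 (fun h => ht₁0 (Subtype.ext h))
      exact ⟨t, ht0, ht.trans ht₁⟩

/-- **The compositum `F₀·K` has the same orders as `F₀`** at every place of `F/K`. -/
theorem exists_ord_eq_of_mem_closure [Algebra.IsAlgebraic K₀ K] [CharZero K] (P : Place K F)
    (f : F) (hf : f ∈ Subfield.closure ((F₀ : Set F) ∪ Set.range (algebraMap K F)))
    (hf0 : f ≠ 0) :
    ∃ t : F₀, t ≠ 0 ∧ P.ord (t : F) = P.ord f := by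
  classical
  have hrange : Set.range (algebraMap F₀ F) = (F₀ : Set F) := by
    ext y
    constructor
    · rintro ⟨t, rfl⟩
      exact t.2
    · intro hy
      exact ⟨⟨y, hy⟩, rfl⟩
  have h1 : f ∈ IntermediateField.adjoin F₀ (Set.range (algebraMap K F)) := by
    rw [← IntermediateField.mem_toSubfield, IntermediateField.adjoin_toSubfield, hrange]
    exact hf
  obtain ⟨T, hTsub, hfT⟩ := IntermediateField.exists_finset_of_mem_adjoin h1
  rw [← Set.image_univ] at hTsub
  obtain ⟨T', -, rfl⟩ := Finset.subset_set_image_iff.mp hTsub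
  obtain ⟨F₁, hle, hT', hord⟩ := exists_intermediateField_of_finset K₀ F₀ P T'
  have h2 : IntermediateField.adjoin F₀ ((T'.image (algebraMap K F) : Finset F) : Set F)
      ≤ IntermediateField.extendScalars hle := by
    rw [IntermediateField.adjoin_le_iff]
    intro y hy
    rw [Finset.mem_coe, Finset.mem_image] at hy
    obtain ⟨c, hc, rfl⟩ := hy
    exact (IntermediateField.mem_extendScalars hle).mpr (hT' c hc)
  exact hord f ((IntermediateField.mem_extendScalars hle).mp (h2 hfT)) hf0

/-- **Uniformisers in `F₀`.**  If `F = F₀·K`, every place of `F/K` has a uniformiser in `F₀`: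
the constant field extension is unramified.  This is the hypothesis `hunif` of
`Fermat.Agent.S18.H61.hdiv_descent` / `exists_ord_eq_one`, for EVERY `K₀`. -/
theorem exists_ord_eq_one_of_closure_eq_top [Algebra.IsAlgebraic K₀ K] [CharZero K]
    (htop : Subfield.closure ((F₀ : Set F) ∪ Set.range (algebraMap K F)) = ⊤) (P : Place K F) :
    ∃ t : F₀, P.ord (t : F) = 1 := by
  obtain ⟨u, hu⟩ := Fermat.Agent.S24.exists_ord_eq_one P
  have hu0 : u ≠ 0 := by
    rintro rfl
    rw [Place.ord_zero] at hu
    exact zero_ne_one hu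
  obtain ⟨t, -, ht⟩ := exists_ord_eq_of_mem_closure K₀ F₀ P u (by rw [htop]; trivial) hu0
  exact ⟨t, ht.trans hu⟩

/-- The compositum hypothesis from a spanning family: if `x ∈ F₀`, `θ i ∈ F₀` and the `θ i` span
`F` over `K(x)`, then `F = F₀·K`. -/
theorem closure_eq_top_of_span {ι : Type*} (x : F) (hx : x ∈ F₀) (θ : ι → F)
    (hθ : ∀ i, θ i ∈ F₀) (hspan : ⊤ ≤ Submodule.span K⟮x⟯ (Set.range θ)) :
    Subfield.closure ((F₀ : Set F) ∪ Set.range (algebraMap K F)) = ⊤ := by
  classical
  set E : Subfield F := Subfield.closure ((F₀ : Set F) ∪ Set.range (algebraMap K F)) with hE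
  have hF₀E : ∀ y ∈ F₀, y ∈ E := fun y hy => Subfield.subset_closure (Or.inl hy)
  have hKxE : ∀ y ∈ K⟮x⟯, y ∈ E := by
    intro y hy
    rw [← IntermediateField.mem_toSubfield, IntermediateField.adjoin_toSubfield] at hy
    refine Subfield.closure_le.mpr ?_ hy
    rintro z (hz | hz)
    · exact Subfield.subset_closure (Or.inr hz)
    · rw [Set.mem_singleton_iff] at hz
      rw [hz]
      exact hF₀E x hx
  rw [eq_top_iff]
  rintro f -
  have hf : f ∈ Submodule.span K⟮x⟯ (Set.range θ) := hspan Submodule.mem_top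
  induction hf using Submodule.span_induction with
  | mem y hy =>
    obtain ⟨i, rfl⟩ := hy
    exact hF₀E _ (hθ i)
  | zero => exact E.zero_mem
  | add y z _ _ hy hz => exact E.add_mem hy hz
  | smul c y _ hy =>
    rw [IntermediateField.smul_def]
    exact E.mul_mem (hKxE _ c.2) hy

end Fermat.Agent.S34.H60
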