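/-
S34 / Program B' (helper60): height bookkeeping and the valuation ring at a height-one prime of a
noetherian integrally closed domain.  Mathlib + `S34.H54.Krull`.

* `height_le_height_comap_of_isIntegral` : for an integral extension `S → R`, the height of a
  prime `Q` of `R` is at most the height of `Q ∩ S`.
* `height_le_one_of_ne_maximalIdeal` : in a noetherian local ring whose maximal ideal is
  generated by two elements, every non-maximal prime has height `≤ 1`.
* `exists_mul_eq_mul_or` : the localisation at a height-one prime `P` of a noetherian integrally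
  closed domain `C` is a valuation ring, in fraction-free form.
* `exists_mul_mem_range_of_dominates` : a valuation subring of `Frac C` containing `C` with
  centre `P` (height one) is the localisation `C_P`.
-/
import Mathlib
import Fermat.Agent.S34.H54.Krull

set_option autoImplicit false

namespace Fermat.Agent.S34.H60

section Height

variable {S R : Type*} [CommRing S] [CommRing R] [Algebra S R]

/-- Contraction of primes along an integral extension is strictly monotone. -/
theorem strictMono_comap_of_isIntegral [Algebra.IsIntegral S R] :
    StrictMono (fun Q : PrimeSpectrum R =>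
      (⟨Q.asIdeal.comap (algebraMap S R), inferInstance⟩ : PrimeSpectrum S)) := by
  intro Q₁ Q₂ h
  have hle : Q₁.asIdeal ≤ Q₂.asIdeal := le_of_lt h
  have hne : ¬ Q₂.asIdeal ≤ Q₁.asIdeal := fun h' => (not_le_of_gt h) h'
  obtain ⟨x, hx₂, hx₁⟩ := SetLike.not_le_iff_exists.mp hne
  have := Q₁.isPrime
  exact Ideal.comap_lt_comap_of_integral_mem_sdiff hle ⟨hx₂, hx₁⟩
    (Algebra.IsIntegral.isIntegral x)

/-- **Heights do not increase under contraction along an integral extension** (incomparability).
-/
theorem height_le_height_comap_of_isIntegral [Algebra.IsIntegral S R] (Q : Ideal R)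
    [hQ : Q.IsPrime] : Q.height ≤ (Q.comap (algebraMap S R)).height := by
  have h := Order.height_le_height_apply_of_strictMono _
    (strictMono_comap_of_isIntegral (S := S) (R := R)) ⟨Q, hQ⟩
  rw [← PrimeSpectrum.height_eq_orderHeight, ← PrimeSpectrum.height_eq_orderHeight] at h
  exact h

/-- In a noetherian local ring whose maximal ideal is generated by two elements, a non-maximal
prime has height at most one. -/
theorem height_le_one_of_ne_maximalIdeal [IsLocalRing S] [IsNoetherianRing S] (a b : S)
    (hm : IsLocalRing.maximalIdeal S = Ideal.span {a, b}) (P : Ideal S) [hP : P.IsPrime]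
    (hPm : P ≠ IsLocalRing.maximalIdeal S) : P.height ≤ 1 := by
  have hlt : P < IsLocalRing.maximalIdeal S :=
    lt_of_le_of_ne (IsLocalRing.le_maximalIdeal hP.ne_top) hPm
  have h1 : P.height < (IsLocalRing.maximalIdeal S).height :=
    Ideal.height_strict_mono_of_isPrime hlt
  have h2 : (IsLocalRing.maximalIdeal S).height ≤ 2 := by
    refine le_trans (Ideal.height_le_spanFinrank _ (IsLocalRing.maximalIdeal.isMaximal S).ne_top) ?_
    rw [hm]
    have h3 : (Ideal.span ({a, b} : Set S)).spanFinrank ≤ ({a, b} : Set S).ncard :=
      Submodule.spanFinrank_span_le_ncard_of_finite (Set.toFinite _)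
    have h4 : ({a, b} : Set S).ncard ≤ 2 := by
      classical
      have : ({a, b} : Set S) = ((({a, b} : Finset S)) : Set S) := by simp
      rw [this, Set.ncard_coe_finset]
      exact Finset.card_le_two
    exact_mod_cast le_trans h3 h4
  have h5 : P.height + 1 ≤ (IsLocalRing.maximalIdeal S).height := Order.add_one_le_of_lt h1
  have h6 : P.height + 1 ≤ 1 + 1 := by
    rw [one_add_one_eq_two]
    exact le_trans h5 h2
  exact (ENat.add_le_add_iff_right (by simp)).mp h6

end Height

section Val

variable {C : Type*} [CommRing C] [IsDomain C] [IsNoetherianRing C] [IsIntegrallyClosed C]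

/-- **The localisation at a height-one prime is a valuation ring**, fraction-free form: for
`a, b : C` there is `s ∉ P` with `b ∣ a * s` or `a ∣ b * s`. -/
theorem exists_mul_eq_mul_or (P : Ideal C) [hP : P.IsPrime] (hht : P.height = 1) (a b : C) :
    ∃ s : C, s ∉ P ∧ ∃ c : C, a * s = b * c ∨ b * s = a * c := by
  have hdvr := Fermat.Agent.S34.H54.isDiscreteValuationRing_atPrime_of_height_one P hht
  have hle : P.primeCompl ≤ nonZeroDivisors C := P.primeCompl_le_nonZeroDivisors
  have hinj : Function.Injective (algebraMap C (Localization.AtPrime P)) :=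
    IsLocalization.injective _ hle
  rcases ValuationRing.dvd_total (algebraMap C (Localization.AtPrime P) a)
      (algebraMap C (Localization.AtPrime P) b) with ⟨z, hz⟩ | ⟨z, hz⟩
  · obtain ⟨⟨c, s⟩, rfl⟩ := IsLocalization.mk'_surjective P.primeCompl z
    refine ⟨s, s.2, c, Or.inr ?_⟩
    apply hinj
    have h1 := congrArg (fun t => t * algebraMap C (Localization.AtPrime P) s) hz
    simp only [mul_assoc, IsLocalization.mk'_spec] at h1
    rw [map_mul, map_mul]
    exact h1
  · obtain ⟨⟨c, s⟩, rfl⟩ := IsLocalization.mk'_surjective P.primeCompl z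
    refine ⟨s, s.2, c, Or.inl ?_⟩
    apply hinj
    have h1 := congrArg (fun t => t * algebraMap C (Localization.AtPrime P) s) hz
    simp only [mul_assoc, IsLocalization.mk'_spec] at h1
    rw [map_mul, map_mul]
    exact h1

variable {K : Type*} [Field K] [Algebra C K] [IsFractionRing C K]

/-- **A valuation ring with centre a height-one prime `P` is `C_P`.**  If the valuation subring
`W` of `Frac C` contains `C` and `C ∩ 𝔪_W = P`, every element of `W` is `c / s` with `s ∉ P`. -/
theorem exists_mul_mem_range_of_dominates (P : Ideal C) [hP : P.IsPrime] (hht : P.height = 1)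
    (W : ValuationSubring K)
    (hcentre : ∀ c : C, algebraMap C K c ∈ W.nonunits ↔ c ∈ P)
    (y : K) (hy : y ∈ W) :
    ∃ s : C, s ∉ P ∧ ∃ c : C, algebraMap C K s * y = algebraMap C K c := by
  have hinj : Function.Injective (algebraMap C K) := IsFractionRing.injective C K
  obtain ⟨a, b, hb, rfl⟩ := IsFractionRing.div_surjective (A := C) y
  have hb0 : algebraMap C K b ≠ 0 := by
    intro h
    rw [map_eq_zero_iff _ hinj] at h
    rw [h] at hb
    exact (mem_nonZeroDivisors_iff_ne_zero.mp hb) rfl
  obtain ⟨s, hs, c, h | h⟩ := exists_mul_eq_mul_or P hht a b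
  · refine ⟨s, hs, c, ?_⟩
    have h1 := congrArg (algebraMap C K) h
    rw [map_mul, map_mul] at h1
    rw [mul_div_assoc', mul_comm, h1]
    exact mul_div_cancel_left₀ _ hb0
  · have h1 := congrArg (algebraMap C K) h
    rw [map_mul, map_mul] at h1
    have h2 : algebraMap C K c * (algebraMap C K a / algebraMap C K b) = algebraMap C K s := by
      rw [mul_div_assoc', mul_comm, ← h1]
      exact mul_div_cancel_left₀ _ hb0
    by_cases hcP : c ∈ P
    · exfalso
      apply hs
      rw [← hcentre, ← h2, ValuationSubring.mem_nonunits_iff, map_mul]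
      have hc1 : W.valuation (algebraMap C K c) < 1 :=
        (ValuationSubring.mem_nonunits_iff W).mp ((hcentre c).mpr hcP)
      have hy1 : W.valuation (algebraMap C K a / algebraMap C K b) ≤ 1 :=
        (ValuationSubring.valuation_le_one_iff W _).mpr hy
      calc W.valuation (algebraMap C K c) * W.valuation (algebraMap C K a / algebraMap C K b)
          ≤ W.valuation (algebraMap C K c) * 1 := by gcongr
        _ = W.valuation (algebraMap C K c) := mul_one _
        _ < 1 := hc1
    · exact ⟨c, hcP, s, h2⟩

end Val

end Fermat.Agent.S34.H60
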