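/-
S34 / Program B' (helper60): (U-GEOM) — the geometric half of the bridge to hypothesis `(U)` of
the node package: **the horizontal primes of the normal model at level `N` are unramified over
level `M`**, in the ideal form consumed by `UnramDeriv.exists_natCast_pow_mem_span_derivative`.

Setting: `K₀ ⊆ K` (`K` algebraic over `K₀`, characteristic zero), `F/K` a function field
(`[F : K(x)] < ∞`), `F₀ ⊆ F` an intermediate field over `K₀`; `R` a noetherian integrally closed
domain with fraction field `F₀`.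

* `exists_place_of_height_one` : a height-one prime `Q` of `R` whose localisation contains the
  constants `K₀` is the centre of a place `w` of `F/K`, and `O_w ∩ F₀ = R_Q`.
* `exists_ord_eq_one_of_centre` : if `F = F₀·K`, a place of `F/K` centred at a height-one prime
  `P` of `R` has a uniformiser in `P` (constant field extensions are unramified).
* `forall_unramified_of_places` : `S ⊆ R` integral, with fraction fields `F₀M ⊆ FM`, `F₀N ⊆ FN`
  compatibly with `α : FM → FN`; if every place of `FN` centred on `R` has the same orders on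
  `α(FM)` as a place of `FM` (`e = 1`), then every prime `Q` of `R` not containing `q` satisfies
  `Q R_Q = (Q ∩ S) R_Q`.
-/
import Mathlib
import Fermat.Prelude.Def_AlgebraicCurve_DivisorClassGroup
import Fermat.Agent.S24.Ord
import Fermat.Agent.S18.H61.DescPlaces
import Fermat.Agent.S34.H60.ConstUnram
import Fermat.Agent.S34.H60.HeightVal

set_option autoImplicit false

open AlgebraicCurve IntermediateField

noncomputable section

namespace Fermat.Agent.S34.H60

variable {k K : Type*} [Field k] [Field K] [Algebra k K] (K₀ : IntermediateField k K)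

section OneLevel

variable {F : Type*} [Field F] [Algebra K F] (F₀ : IntermediateField K₀ F)
  {R : Type*} [CommRing R] [IsDomain R] [IsNoetherianRing R] [IsIntegrallyClosed R]
  [Algebra R F₀] [IsFractionRing R F₀]

/-- The localisation of `R` at the prime `Q`, as a subring of the fraction field `F₀`. -/
def locSubring (Q : Ideal R) [hQ : Q.IsPrime] : Subring F₀ where
  carrier := {f | ∃ b : R, b ∉ Q ∧ ∃ c : R, algebraMap R F₀ b * f = algebraMap R F₀ c}
  mul_mem' := by
    rintro f g ⟨b₁, hb₁, c₁, h₁⟩ ⟨b₂, hb₂, c₂, h₂⟩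
    refine ⟨b₁ * b₂, fun h => (hQ.mem_or_mem h).elim hb₁ hb₂, c₁ * c₂, ?_⟩
    rw [map_mul, map_mul, ← h₁, ← h₂]
    ring
  one_mem' := ⟨1, fun h => hQ.ne_top ((Ideal.eq_top_iff_one Q).mpr h), 1, by rw [mul_one]⟩
  add_mem' := by
    rintro f g ⟨b₁, hb₁, c₁, h₁⟩ ⟨b₂, hb₂, c₂, h₂⟩
    refine ⟨b₁ * b₂, fun h => (hQ.mem_or_mem h).elim hb₁ hb₂, b₂ * c₁ + b₁ * c₂, ?_⟩
    rw [map_mul, map_add, map_mul, map_mul, ← h₁, ← h₂]
    ring
  zero_mem' := ⟨1, fun h => hQ.ne_top ((Ideal.eq_top_iff_one Q).mpr h), 0, by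
    rw [mul_zero, map_zero]⟩
  neg_mem' := by
    rintro f ⟨b, hb, c, h⟩
    exact ⟨b, hb, -c, by rw [map_neg, ← h, mul_neg]⟩

/-- At a height-one prime the localisation is a valuation subring of the fraction field. -/
def locValuationSubring (Q : Ideal R) [Q.IsPrime] (hht : Q.height = 1) : ValuationSubring F₀ :=
  { locSubring K₀ F₀ Q with
    mem_or_inv_mem' := by
      intro f
      have hinj : Function.Injective (algebraMap R F₀) := IsFractionRing.injective R F₀
      obtain ⟨a, d, hd, rfl⟩ := IsFractionRing.div_surjective (A := R) f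
      have hd0 : algebraMap R F₀ d ≠ 0 := by
        intro h
        rw [map_eq_zero_iff _ hinj] at h
        rw [h] at hd
        exact (mem_nonZeroDivisors_iff_ne_zero.mp hd) rfl
      by_cases ha : a = 0
      · left
        rw [ha, map_zero, zero_div]
        exact (locSubring K₀ F₀ Q).zero_mem
      have ha0 : algebraMap R F₀ a ≠ 0 := fun h => ha ((map_eq_zero_iff _ hinj).mp h)
      obtain ⟨s, hs, c, h | h⟩ := exists_mul_eq_mul_or Q hht a d
      · left
        refine ⟨s, hs, c, ?_⟩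
        have h1 := congrArg (algebraMap R F₀) h
        rw [map_mul, map_mul] at h1
        rw [mul_div_assoc', mul_comm, h1]
        exact mul_div_cancel_left₀ _ hd0
      · right
        refine ⟨s, hs, c, ?_⟩
        have h1 := congrArg (algebraMap R F₀) h
        rw [map_mul, map_mul] at h1
        rw [inv_div, mul_div_assoc', mul_comm, h1]
        exact mul_div_cancel_left₀ _ ha0 }

theorem mem_locValuationSubring (Q : Ideal R) [Q.IsPrime] (hht : Q.height = 1) (f : F₀) :
    f ∈ locValuationSubring K₀ F₀ Q hht ↔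
      ∃ b : R, b ∉ Q ∧ ∃ c : R, algebraMap R F₀ b * f = algebraMap R F₀ c := Iff.rfl

/-- **Height-one primes are centres of places**, and the place sees exactly the localisation. -/
theorem exists_place_of_height_one [Algebra.IsAlgebraic K₀ K] (x : F)
    [FiniteDimensional K⟮x⟯ F] (Q : Ideal R) [hQ : Q.IsPrime] (hht : Q.height = 1)
    (hconst : ∀ a : K₀, ∃ b : R, b ∉ Q ∧
      ∃ c : R, algebraMap R F₀ b * algebraMap K₀ F₀ a = algebraMap R F₀ c) :
    ∃ w : Place K F,
      (∀ r : R, r ≠ 0 → 0 ≤ w.ord ((algebraMap R F₀ r : F₀) : F)) ∧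
      (∀ r : R, r ≠ 0 → (r ∈ Q ↔ 0 < w.ord ((algebraMap R F₀ r : F₀) : F))) ∧
      (∀ f : F₀, f ≠ 0 → 0 ≤ w.ord (f : F) →
        ∃ b : R, b ∉ Q ∧ ∃ c : R, algebraMap R F₀ b * f = algebraMap R F₀ c) := by
  classical
  have hinj : Function.Injective (algebraMap R F₀) := IsFractionRing.injective R F₀
  have h1Q : (1 : R) ∉ Q := fun h => hQ.ne_top ((Ideal.eq_top_iff_one Q).mpr h)
  set V := locValuationSubring K₀ F₀ Q hht with hV
  have hRV : ∀ r : R, algebraMap R F₀ r ∈ V := fun r =>
    ⟨1, h1Q, r, by rw [map_one, one_mul]⟩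
  -- `Q ≠ ⊥`
  have hQ0 : Q ≠ ⊥ := by
    intro h
    rw [h, Ideal.height_bot] at hht
    exact zero_ne_one hht
  obtain ⟨t, htQ, ht0⟩ := Submodule.exists_mem_ne_zero_of_ne_bot hQ0
  have ht0' : algebraMap R F₀ t ≠ 0 := fun h => ht0 ((map_eq_zero_iff _ hinj).mp h)
  have hVtop : V ≠ ⊤ := by
    intro h
    have h1 : (algebraMap R F₀ t)⁻¹ ∈ V := by rw [h]; exact ValuationSubring.mem_top _
    obtain ⟨b, hb, c, hbc⟩ := h1
    apply hb
    have h2 : b = c * t := by
      apply hinj
      rw [map_mul, ← hbc, mul_assoc, inv_mul_cancel₀ ht0', mul_one]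
    rw [h2]
    exact Q.mul_mem_left c htQ
  obtain ⟨w, hw⟩ := Fermat.Agent.S18.H61.exists_place_above K₀ F₀ x V hconst hVtop
  have hcoe0 : ∀ f : F₀, f ≠ 0 → (f : F) ≠ 0 := fun f hf h => hf (Subtype.ext h)
  have hmem : ∀ f : F₀, f ≠ 0 → (f ∈ V ↔ 0 ≤ w.ord (f : F)) := fun f hf => by
    rw [hw f]
    exact Fermat.Agent.S24.mem_iff_ord_nonneg w (hcoe0 f hf)
  have hr0 : ∀ r : R, r ≠ 0 → algebraMap R F₀ r ≠ 0 := fun r hr h =>
    hr ((map_eq_zero_iff _ hinj).mp h)
  refine ⟨w, fun r hr => (hmem _ (hr0 r hr)).mp (hRV r), fun r hr => ?_, fun f hf hf0 =>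
    (hmem f hf).mpr hf0⟩
  have hord := (hmem _ (hr0 r hr)).mp (hRV r)
  have hinv : (algebraMap R F₀ r)⁻¹ ∈ V ↔ 0 ≤ w.ord (((algebraMap R F₀ r)⁻¹ : F₀) : F) :=
    hmem _ (inv_ne_zero (hr0 r hr))
  rw [IntermediateField.coe_inv, Place.ord_inv] at hinv
  constructor
  · intro hrQ
    by_contra hpos
    have h1 : (algebraMap R F₀ r)⁻¹ ∈ V := hinv.mpr (by omega)
    obtain ⟨b, hb, c, hbc⟩ := h1
    apply hb
    have h2 : b = c * r := by
      apply hinj
      rw [map_mul, ← hbc, mul_assoc, inv_mul_cancel₀ (hr0 r hr), mul_one]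
    rw [h2]
    exact Q.mul_mem_left c hrQ
  · intro hpos
    by_contra hrQ
    have h1 : (algebraMap R F₀ r)⁻¹ ∈ V :=
      ⟨r, hrQ, 1, by rw [mul_inv_cancel₀ (hr0 r hr), map_one]⟩
    have := hinv.mp h1
    omega

/-- **Uniformisers in the ring.**  If `F = F₀·K`, a place of `F/K` centred at the height-one
prime `P` of `R` has a uniformiser in `P`. -/
theorem exists_ord_eq_one_of_centre [Algebra.IsAlgebraic K₀ K] [CharZero K]
    (hcomp : Subfield.closure ((F₀ : Set F) ∪ Set.range (algebraMap K F)) = ⊤)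
    (v : Place K F) (hv : ∀ s : R, s ≠ 0 → 0 ≤ v.ord ((algebraMap R F₀ s : F₀) : F))
    (P : Ideal R) [hP : P.IsPrime]
    (hPv : ∀ s : R, s ≠ 0 → (s ∈ P ↔ 0 < v.ord ((algebraMap R F₀ s : F₀) : F)))
    (hht : P.height = 1) :
    ∃ π : R, π ∈ P ∧ v.ord ((algebraMap R F₀ π : F₀) : F) = 1 := by
  classical
  have hinj : Function.Injective (algebraMap R F₀) := IsFractionRing.injective R F₀
  have hr0 : ∀ r : R, r ≠ 0 → ((algebraMap R F₀ r : F₀) : F) ≠ 0 := fun r hr h =>
    hr ((map_eq_zero_iff _ hinj).mp (Subtype.ext h))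
  obtain ⟨t, ht⟩ := exists_ord_eq_one_of_closure_eq_top K₀ F₀ hcomp v
  obtain ⟨a, d, hd, rfl⟩ := IsFractionRing.div_surjective (A := R) t
  have hd0 : d ≠ 0 := mem_nonZeroDivisors_iff_ne_zero.mp hd
  have ha0 : a ≠ 0 := by
    rintro rfl
    rw [map_zero, zero_div] at ht
    simp [Place.ord_zero] at ht
  rw [IntermediateField.coe_div, Fermat.Agent.S24.ord_div v (hr0 a ha0) (hr0 d hd0)] at ht
  obtain ⟨s, hs, c, h | h⟩ := exists_mul_eq_mul_or P hht a d
  · -- `a s = d c`
    have hs0 : s ≠ 0 := fun h0 => hs (h0 ▸ P.zero_mem)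
    have hc0 : c ≠ 0 := by
      rintro rfl
      rw [mul_zero] at h
      exact mul_ne_zero ha0 hs0 h
    have hsord : v.ord ((algebraMap R F₀ s : F₀) : F) = 0 := by
      have h1 := hv s hs0
      have h2 := (hPv s hs0).not.mp hs
      omega
    have h1 := congrArg (fun r : R => v.ord ((algebraMap R F₀ r : F₀) : F)) h
    simp only [map_mul, IntermediateField.coe_mul] at h1
    rw [v.ord_mul (hr0 a ha0) (hr0 s hs0), v.ord_mul (hr0 d hd0) (hr0 c hc0)] at h1
    have hc1 : v.ord ((algebraMap R F₀ c : F₀) : F) = 1 := by omega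
    exact ⟨c, (hPv c hc0).mpr (by omega), hc1⟩
  · -- `d s = a c`: impossible
    exfalso
    have hs0 : s ≠ 0 := fun h0 => hs (h0 ▸ P.zero_mem)
    have hc0 : c ≠ 0 := by
      rintro rfl
      rw [mul_zero] at h
      exact mul_ne_zero hd0 hs0 h
    have hsord : v.ord ((algebraMap R F₀ s : F₀) : F) = 0 := by
      have h1 := hv s hs0
      have h2 := (hPv s hs0).not.mp hs
      omega
    have h1 := congrArg (fun r : R => v.ord ((algebraMap R F₀ r : F₀) : F)) h
    simp only [map_mul, IntermediateField.coe_mul] at h1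
    rw [v.ord_mul (hr0 d hd0) (hr0 s hs0), v.ord_mul (hr0 a ha0) (hr0 c hc0)] at h1
    have := hv c hc0
    omega

end OneLevel

section TwoLevels

variable {FM FN : Type*} [Field FM] [Field FN] [Algebra K FM] [Algebra K FN]
  (F0M : IntermediateField K₀ FM) (F0N : IntermediateField K₀ FN)
  {S R : Type*} [CommRing S] [IsDomain S] [IsNoetherianRing S] [IsIntegrallyClosed S]
  [CommRing R] [IsDomain R] [IsNoetherianRing R] [IsIntegrallyClosed R]
  [Algebra S R] [Algebra.IsIntegral S R]
  [Algebra S F0M] [IsFractionRing S F0M] [Algebra R F0N] [IsFractionRing R F0N]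

/-- A nonzero prime of a domain has height at least one; with the bound `≤ 1` it is one. -/
theorem height_eq_one_of_le_one {C : Type*} [CommRing C] [IsDomain C] (P : Ideal C)
    [hP : P.IsPrime] (hP0 : P ≠ ⊥) (hle : P.height ≤ 1) : P.height = 1 := by
  refine le_antisymm hle ?_
  by_contra hlt
  have h0 : P.height = 0 := Order.lt_one_iff.mp (not_le.mp hlt)
  rw [Ideal.height_eq_zero_iff, IsDomain.minimalPrimes_eq_singleton_bot,
    Set.mem_singleton_iff] at h0
  exact hP0 h0

/-- **(U-GEOM) The horizontal primes of `R` are unramified over `S`.**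

`S ⊆ R` an integral extension of noetherian integrally closed domains with fraction fields the
`K₀`-forms `F₀M ⊆ FM`, `F₀N ⊆ FN` of two function fields over `K`, compatibly with
`α : FM → FN`.  Assume `FM = F₀M·K`, the constants `K₀` lie in `R[1/q]`, the primes of `S` not
containing `q` have height `≤ 1`, and every place of `FN` centred on `R` has the same orders on
`α(FM)` as a place of `FM` (i.e. `e = 1`).  Then every prime `Q` of `R` not containing `q`
satisfies `Q R_Q = (Q ∩ S) R_Q`: the hypothesis `hunr` of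
`exists_natCast_pow_mem_span_derivative`. -/
theorem forall_unramified_of_places [Algebra.IsAlgebraic K₀ K] [CharZero K]
    (α : FM →+* FN) (xN : FN) [FiniteDimensional K⟮xN⟯ FN]
    (hcomp : Subfield.closure ((F0M : Set FM) ∪ Set.range (algebraMap K FM)) = ⊤)
    (hcompat : ∀ s : S, ((algebraMap R F0N (algebraMap S R s) : F0N) : FN)
      = α ((algebraMap S F0M s : F0M) : FM))
    (q : ℕ)
    (hconst : ∀ a : K₀, ∃ n : ℕ, ∃ c : R,
      algebraMap R F0N ((q : R) ^ n) * algebraMap K₀ F0N a = algebraMap R F0N c)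
    (hht : ∀ P : Ideal S, P.IsPrime → (q : S) ∉ P → P.height ≤ 1)
    (he : ∀ w : Place K FN,
      (∀ r : R, ((algebraMap R F0N r : F0N) : FN) ∈ w.toValuationSubring) →
      ∃ v : Place K FM, ∀ f : FM, v.ord f = w.ord (α f)) :
    ∀ Q : Ideal R, Q.IsPrime → (q : R) ∉ Q → ∀ a ∈ Q, ∃ b ∉ Q,
      b * a ∈ Ideal.map (algebraMap S R) (Q.comap (algebraMap S R)) := by
  classical
  intro Q hQ hqQ a ha
  have h1Q : (1 : R) ∉ Q := fun h => hQ.ne_top ((Ideal.eq_top_iff_one Q).mpr h)
  by_cases ha0 : a = 0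
  · exact ⟨1, h1Q, by rw [ha0, mul_zero]; exact Ideal.zero_mem _⟩
  have hinjR : Function.Injective (algebraMap R F0N) := IsFractionRing.injective R F0N
  have hinjS : Function.Injective (algebraMap S F0M) := IsFractionRing.injective S F0M
  have hinjSR : Function.Injective (algebraMap S R) := by
    rw [injective_iff_map_eq_zero]
    intro s hs
    have h1 := hcompat s
    rw [hs, map_zero] at h1
    have h2 : ((algebraMap S F0M s : F0M) : FM) = 0 := by
      have h3 : α ((algebraMap S F0M s : F0M) : FM) = 0 := h1.symm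
      exact (map_eq_zero α).mp h3
    exact (map_eq_zero_iff _ hinjS).mp (Subtype.ext h2)
  set P : Ideal S := Q.comap (algebraMap S R) with hP
  have hqP : (q : S) ∉ P := by
    intro h
    rw [hP, Ideal.mem_comap, map_natCast] at h
    exact hqQ h
  have hP0 : P ≠ ⊥ :=
    Ideal.comap_ne_bot_of_integral_mem ha0 ha (Algebra.IsIntegral.isIntegral a)
  have hPht : P.height = 1 := height_eq_one_of_le_one P hP0 (hht P inferInstance hqP)
  have hQ0 : Q ≠ ⊥ := fun h => ha0 (by rw [h] at ha; exact ha)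
  have hQht : Q.height = 1 :=
    height_eq_one_of_le_one Q hQ0 (hPht ▸ height_le_height_comap_of_isIntegral (S := S) Q)
  -- the place at `Q`
  have hconstQ : ∀ c₀ : K₀, ∃ b : R, b ∉ Q ∧
      ∃ c : R, algebraMap R F0N b * algebraMap K₀ F0N c₀ = algebraMap R F0N c := by
    intro c₀
    obtain ⟨n, c, hc⟩ := hconst c₀
    exact ⟨(q : R) ^ n, fun h => hqQ (hQ.mem_of_pow_mem n h), c, hc⟩
  obtain ⟨w, hw0, hwQ, hwV⟩ := exists_place_of_height_one K₀ F0N xN Q hQht hconstQ
  have hRw : ∀ r : R, ((algebraMap R F0N r : F0N) : FN) ∈ w.toValuationSubring := by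
    intro r
    by_cases hr : r = 0
    · rw [hr, map_zero]
      exact w.toValuationSubring.zero_mem
    · have hr' : ((algebraMap R F0N r : F0N) : FN) ≠ 0 := fun h =>
        hr ((map_eq_zero_iff _ hinjR).mp (Subtype.ext h))
      exact (Fermat.Agent.S24.mem_iff_ord_nonneg w hr').mpr (hw0 r hr)
  obtain ⟨v, hv⟩ := he w hRw
  -- `v` is centred at `P`
  have hSR0 : ∀ s : S, s ≠ 0 → algebraMap S R s ≠ 0 := fun s hs h =>
    hs ((map_eq_zero_iff _ hinjSR).mp h)
  have hvw : ∀ s : S, v.ord ((algebraMap S F0M s : F0M) : FM)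
      = w.ord ((algebraMap R F0N (algebraMap S R s) : F0N) : FN) := by
    intro s
    rw [hv, hcompat]
  have hvS : ∀ s : S, s ≠ 0 → 0 ≤ v.ord ((algebraMap S F0M s : F0M) : FM) := by
    intro s hs
    rw [hvw]
    exact hw0 _ (hSR0 s hs)
  have hvP : ∀ s : S, s ≠ 0 → (s ∈ P ↔ 0 < v.ord ((algebraMap S F0M s : F0M) : FM)) := by
    intro s hs
    rw [hvw, ← hwQ _ (hSR0 s hs)]
    rfl
  obtain ⟨π, hπP, hπ⟩ := exists_ord_eq_one_of_centre K₀ F0M hcomp v hvS P hvP hPht
  rw [hvw] at hπ
  -- divide `a` by `π`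
  have hπ0 : algebraMap S R π ≠ 0 := by
    intro h
    rw [h, map_zero] at hπ
    simp [Place.ord_zero] at hπ
  have hπ0' : algebraMap R F0N (algebraMap S R π) ≠ 0 := fun h =>
    hπ0 ((map_eq_zero_iff _ hinjR).mp h)
  have ha0' : algebraMap R F0N a ≠ 0 := fun h => ha0 ((map_eq_zero_iff _ hinjR).mp h)
  have hcoe0 : ∀ f : F0N, f ≠ 0 → (f : FN) ≠ 0 := fun f hf h => hf (Subtype.ext h)
  have hapos := (hwQ a ha0).mp ha
  have hford : 0 ≤ w.ord (((algebraMap R F0N a / algebraMap R F0N (algebraMap S R π) : F0N)) : FN)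
      := by
    rw [IntermediateField.coe_div,
      Fermat.Agent.S24.ord_div w (hcoe0 _ ha0') (hcoe0 _ hπ0'), hπ]
    omega
  obtain ⟨b, hbQ, c, hbc⟩ := hwV _ (div_ne_zero ha0' hπ0') hford
  refine ⟨b, hbQ, ?_⟩
  have hba : b * a = c * algebraMap S R π := by
    apply hinjR
    rw [map_mul, map_mul, ← hbc, mul_assoc, div_mul_cancel₀ _ hπ0']
  rw [hba]
  exact Ideal.mul_mem_left _ c (Ideal.mem_map_of_mem _ hπP)

end TwoLevels

end Fermat.Agent.S34.H60
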