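/-
S34 / Program B' (helper60): (U-GEOM), POINTWISE form.

`forall_unramified_of_places` (`HUnr.lean`) asks its hypotheses (`hht`, `he`) at ALL primes of the
charts; for `q ∈ {2, 3}` the Hauptmodul charts contain cusps where `α` is ramified, so the global
hypothesis `he` fails there.  The same proof works prime by prime:

* `unramified_at_of_places` : ONE prime `Q` of `R` (`S ⊆ R` integral, noetherian integrally closed
  domains with fraction fields the `K₀`-forms `F₀M ⊆ FM`, `F₀N ⊆ FN`, compatible with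
  `α : FM → FN`), such that the constants `K₀` lie in `R_Q`, `Q ∩ S` has height `≤ 1`, and every
  place of `FN` CENTRED AT `Q` has the same orders on `α(FM)` as a place of `FM` (`e = 1`).
  Then `Q R_Q = (Q ∩ S) R_Q`.
* `forall_unramified_of_places_le` : the same for all `Q` in a family of primes (e.g. the primes
  `Q` with `q ∉ Q` and `Q ∩ S ⊆ s` for a closed point `s` of `S`).
-/
import Fermat.Agent.S34.H60.HUnr

set_option autoImplicit false

open AlgebraicCurve IntermediateField

noncomputable section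

namespace Fermat.Agent.S34.H60

variable {k K : Type*} [Field k] [Field K] [Algebra k K] (K₀ : IntermediateField k K)

section TwoLevels

variable {FM FN : Type*} [Field FM] [Field FN] [Algebra K FM] [Algebra K FN]
  (F0M : IntermediateField K₀ FM) (F0N : IntermediateField K₀ FN)
  {S R : Type*} [CommRing S] [IsDomain S] [IsNoetherianRing S] [IsIntegrallyClosed S]
  [CommRing R] [IsDomain R] [IsNoetherianRing R] [IsIntegrallyClosed R]
  [Algebra S R] [Algebra.IsIntegral S R]
  [Algebra S F0M] [IsFractionRing S F0M] [Algebra R F0N] [IsFractionRing R F0N]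

/-- **(U-GEOM), pointwise.**  A prime `Q` of `R` is unramified over `S` as soon as the constants
lie in `R_Q`, `Q ∩ S` has height `≤ 1` and every place of `FN` centred at `Q` has the same orders
on `α(FM)` as a place of `FM`. -/
theorem unramified_at_of_places [Algebra.IsAlgebraic K₀ K] [CharZero K]
    (α : FM →+* FN) (xN : FN) [FiniteDimensional K⟮xN⟯ FN]
    (hcomp : Subfield.closure ((F0M : Set FM) ∪ Set.range (algebraMap K FM)) = ⊤)
    (hcompat : ∀ s : S, ((algebraMap R F0N (algebraMap S R s) : F0N) : FN)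
      = α ((algebraMap S F0M s : F0M) : FM))
    (Q : Ideal R) [hQ : Q.IsPrime]
    (hconstQ : ∀ c₀ : K₀, ∃ b : R, b ∉ Q ∧
      ∃ c : R, algebraMap R F0N b * algebraMap K₀ F0N c₀ = algebraMap R F0N c)
    (hhtQ : (Q.comap (algebraMap S R)).height ≤ 1)
    (heQ : ∀ w : Place K FN,
      (∀ r : R, ((algebraMap R F0N r : F0N) : FN) ∈ w.toValuationSubring) →
      (∀ r : R, r ≠ 0 → (r ∈ Q ↔ 0 < w.ord ((algebraMap R F0N r : F0N) : FN))) →
      ∃ v : Place K FM, ∀ f : FM, v.ord f = w.ord (α f)) :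
    ∀ a ∈ Q, ∃ b ∉ Q, b * a ∈ Ideal.map (algebraMap S R) (Q.comap (algebraMap S R)) := by
  classical
  intro a ha
  have h1Q : (1 : R) ∉ Q := fun h => hQ.ne_top ((Ideal.eq_top_iff_one Q).mpr h)
  by_cases ha0 : a = 0
  · exact ⟨1, h1Q, by rw [ha0, mul_zero]; exact Ideal.zero_mem _⟩
  have hinjR : Function.Injective (algebraMap R F0N) := IsFractionRing.injective R F0N
  have hinjS : Function.Injective (algebraMap S F0M) := IsFractionRing.injective S F0M
  have hinjSR : Function.Injective (algebraMap S R) := by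
    rw [injective_iff_map_eq_zero]
    intro s hs
    have h1 := hcompat s
    rw [hs, map_zero] at h1
    have h2 : ((algebraMap S F0M s : F0M) : FM) = 0 := by
      have h3 : α ((algebraMap S F0M s : F0M) : FM) = 0 := h1.symm
      exact (map_eq_zero α).mp h3
    exact (map_eq_zero_iff _ hinjS).mp (Subtype.ext h2)
  set P : Ideal S := Q.comap (algebraMap S R) with hP
  have hP0 : P ≠ ⊥ :=
    Ideal.comap_ne_bot_of_integral_mem ha0 ha (Algebra.IsIntegral.isIntegral a)
  have hPht : P.height = 1 := height_eq_one_of_le_one P hP0 hhtQ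
  have hQ0 : Q ≠ ⊥ := fun h => ha0 (by rw [h] at ha; exact ha)
  have hQht : Q.height = 1 :=
    height_eq_one_of_le_one Q hQ0 (hPht ▸ height_le_height_comap_of_isIntegral (S := S) Q)
  -- the place at `Q`
  obtain ⟨w, hw0, hwQ, hwV⟩ := exists_place_of_height_one K₀ F0N xN Q hQht hconstQ
  have hRw : ∀ r : R, ((algebraMap R F0N r : F0N) : FN) ∈ w.toValuationSubring := by
    intro r
    by_cases hr : r = 0
    · rw [hr, map_zero]
      exact w.toValuationSubring.zero_mem
    · have hr' : ((algebraMap R F0N r : F0N) : FN) ≠ 0 := fun h =>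
        hr ((map_eq_zero_iff _ hinjR).mp (Subtype.ext h))
      exact (Fermat.Agent.S24.mem_iff_ord_nonneg w hr').mpr (hw0 r hr)
  obtain ⟨v, hv⟩ := heQ w hRw hwQ
  -- `v` is centred at `P`
  have hSR0 : ∀ s : S, s ≠ 0 → algebraMap S R s ≠ 0 := fun s hs h =>
    hs ((map_eq_zero_iff _ hinjSR).mp h)
  have hvw : ∀ s : S, v.ord ((algebraMap S F0M s : F0M) : FM)
      = w.ord ((algebraMap R F0N (algebraMap S R s) : F0N) : FN) := by
    intro s
    rw [hv, hcompat]
  have hvS : ∀ s : S, s ≠ 0 → 0 ≤ v.ord ((algebraMap S F0M s : F0M) : FM) := by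
    intro s hs
    rw [hvw]
    exact hw0 _ (hSR0 s hs)
  have hvP : ∀ s : S, s ≠ 0 → (s ∈ P ↔ 0 < v.ord ((algebraMap S F0M s : F0M) : FM)) := by
    intro s hs
    rw [hvw, ← hwQ _ (hSR0 s hs)]
    rfl
  obtain ⟨π, hπP, hπ⟩ := exists_ord_eq_one_of_centre K₀ F0M hcomp v hvS P hvP hPht
  rw [hvw] at hπ
  -- divide `a` by `π`
  have hπ0 : algebraMap S R π ≠ 0 := by
    intro h
    rw [h, map_zero] at hπ
    simp [Place.ord_zero] at hπ
  have hπ0' : algebraMap R F0N (algebraMap S R π) ≠ 0 := fun h =>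
    hπ0 ((map_eq_zero_iff _ hinjR).mp h)
  have ha0' : algebraMap R F0N a ≠ 0 := fun h => ha0 ((map_eq_zero_iff _ hinjR).mp h)
  have hcoe0 : ∀ f : F0N, f ≠ 0 → (f : FN) ≠ 0 := fun f hf h => hf (Subtype.ext h)
  have hapos := (hwQ a ha0).mp ha
  have hford : 0 ≤ w.ord (((algebraMap R F0N a / algebraMap R F0N (algebraMap S R π) : F0N)) : FN)
      := by
    rw [IntermediateField.coe_div,
      Fermat.Agent.S24.ord_div w (hcoe0 _ ha0') (hcoe0 _ hπ0'), hπ]
    omega
  obtain ⟨b, hbQ, c, hbc⟩ := hwV _ (div_ne_zero ha0' hπ0') hford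
  refine ⟨b, hbQ, ?_⟩
  have hba : b * a = c * algebraMap S R π := by
    apply hinjR
    rw [map_mul, map_mul, ← hbc, mul_assoc, div_mul_cancel₀ _ hπ0']
  rw [hba]
  exact Ideal.mul_mem_left _ c (Ideal.mem_map_of_mem _ hπP)

/-- **(U-GEOM) over a closed point.**  The primes `Q` of `R` with `q ∉ Q` lying over a prime
contained in a given prime `s` of `S` are unramified over `S`, as soon as the constants lie in
`R[1/q]`, the primes of `S` inside `s` not containing `q` have height `≤ 1`, and the places of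
`FN` centred at such a `Q` have the same orders on `α(FM)` as a place of `FM`. -/
theorem forall_unramified_of_places_le [Algebra.IsAlgebraic K₀ K] [CharZero K]
    (α : FM →+* FN) (xN : FN) [FiniteDimensional K⟮xN⟯ FN]
    (hcomp : Subfield.closure ((F0M : Set FM) ∪ Set.range (algebraMap K FM)) = ⊤)
    (hcompat : ∀ s : S, ((algebraMap R F0N (algebraMap S R s) : F0N) : FN)
      = α ((algebraMap S F0M s : F0M) : FM))
    (q : ℕ)
    (hconst : ∀ a : K₀, ∃ n : ℕ, ∃ c : R,
      algebraMap R F0N ((q : R) ^ n) * algebraMap K₀ F0N a = algebraMap R F0N c)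
    (s : Ideal S)
    (hht : ∀ P : Ideal S, P.IsPrime → (q : S) ∉ P → P ≤ s → P.height ≤ 1)
    (he : ∀ Q : Ideal R, Q.IsPrime → (q : R) ∉ Q → Q.comap (algebraMap S R) ≤ s →
      ∀ w : Place K FN,
      (∀ r : R, ((algebraMap R F0N r : F0N) : FN) ∈ w.toValuationSubring) →
      (∀ r : R, r ≠ 0 → (r ∈ Q ↔ 0 < w.ord ((algebraMap R F0N r : F0N) : FN))) →
      ∃ v : Place K FM, ∀ f : FM, v.ord f = w.ord (α f)) :
    ∀ Q : Ideal R, Q.IsPrime → (q : R) ∉ Q → Q.comap (algebraMap S R) ≤ s → ∀ a ∈ Q, ∃ b ∉ Q,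
      b * a ∈ Ideal.map (algebraMap S R) (Q.comap (algebraMap S R)) := by
  intro Q hQ hqQ hQs
  have hqP : (q : S) ∉ Q.comap (algebraMap S R) := by
    intro h
    rw [Ideal.mem_comap, map_natCast] at h
    exact hqQ h
  refine unramified_at_of_places K₀ F0M F0N α xN hcomp hcompat Q ?_
    (hht _ inferInstance hqP hQs) (he Q hQ hqQ hQs)
  intro c₀
  obtain ⟨n, c, hc⟩ := hconst c₀
  exact ⟨(q : R) ^ n, fun h => hqQ (hQ.mem_of_pow_mem n h), c, hc⟩

end TwoLevels

end Fermat.Agent.S34.H60
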