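/-
S34 / Program B' (helper60): converse of `UnramDeriv.derivative_not_mem_of_unramified`.

Setting: `R = S[X]/(G)` (presented by `hsurj` + `hker`), `x` the class of `X`, `Q` a prime of `R`.

* `unramified_of_derivative_not_mem` (K4): if `G'(x) ∉ Q` then `Q R_Q = (Q ∩ S) R_Q`, written
  without localisation: every `a ∈ Q` has a multiple `b * a ∈ (Q ∩ S) R` with `b ∉ Q`
  ("a monogenic extension is unramified where the derivative does not vanish").  No hypothesis on
  characteristics, no domain or normality hypothesis.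

Mathlib only.
-/
import Mathlib

set_option autoImplicit false

open Polynomial

namespace Fermat.Agent.S34.H60

variable {S R : Type*} [CommRing S] [CommRing R] [Algebra S R]

/-- The value at `x` of a polynomial with coefficients in `P` lies in the extended ideal. -/
theorem aeval_mem_map_of_coeff_mem (x : R) (P : Ideal S) (T : S[X]) (hT : ∀ i, T.coeff i ∈ P) :
    aeval x T ∈ Ideal.map (algebraMap S R) P := by
  rw [aeval_eq_sum_range]
  refine Ideal.sum_mem _ fun i _ => ?_
  rw [Algebra.smul_def]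
  exact Ideal.mul_mem_right _ _ (Ideal.mem_map_of_mem _ (hT i))

/-- (K4) **A monogenic extension is unramified at the primes not containing `G'(x)`.** -/
theorem unramified_of_derivative_not_mem (G : S[X]) (x : R)
    (hsurj : Function.Surjective (aeval x : S[X] →ₐ[S] R))
    (hker : ∀ p : S[X], aeval x p = 0 ↔ G ∣ p)
    (Q : Ideal R) [Q.IsPrime] (hJ : aeval x (derivative G) ∉ Q) :
    ∀ a ∈ Q, ∃ b ∉ Q, b * a ∈ Ideal.map (algebraMap S R) (Q.comap (algebraMap S R)) := by
  classical
  intro a ha
  -- notation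
  set P : Ideal S := Q.comap (algebraMap S R) with hP
  let L := FractionRing (R ⧸ Q)
  let κ := FractionRing (S ⧸ P)
  let φR : R →+* L := (algebraMap (R ⧸ Q) L).comp (Ideal.Quotient.mk Q)
  have hφR : ∀ r : R, φR r = 0 ↔ r ∈ Q := by
    intro r
    simp only [φR, RingHom.comp_apply]
    rw [map_eq_zero_iff _ (IsFractionRing.injective (R ⧸ Q) L), Ideal.Quotient.eq_zero_iff_mem]
  let ι : S ⧸ P →+* L :=
    Ideal.Quotient.lift P (φR.comp (algebraMap S R)) (fun a ha => by
      rw [RingHom.comp_apply, hφR]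
      exact ha)
  have hι : Function.Injective ι := by
    rw [injective_iff_map_eq_zero]
    intro a ha
    obtain ⟨s, rfl⟩ := Ideal.Quotient.mk_surjective a
    rw [Ideal.Quotient.lift_mk, RingHom.comp_apply, hφR] at ha
    exact Ideal.Quotient.eq_zero_iff_mem.mpr ha
  let j : κ →+* L := IsFractionRing.lift hι
  let ψ : S →+* κ := (algebraMap (S ⧸ P) κ).comp (Ideal.Quotient.mk P)
  have hjψ : j.comp ψ = φR.comp (algebraMap S R) := by
    ext s
    simp only [j, ψ, RingHom.comp_apply]
    rw [IsFractionRing.lift_algebraMap, Ideal.Quotient.lift_mk, RingHom.comp_apply]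
  have hψ : ∀ s : S, ψ s = 0 ↔ s ∈ P := by
    intro s
    simp only [ψ, RingHom.comp_apply]
    rw [map_eq_zero_iff _ (IsFractionRing.injective (S ⧸ P) κ), Ideal.Quotient.eq_zero_iff_mem]
  set xb : L := φR x with hxb
  have hev : ∀ F : S[X], eval₂ j xb (F.map ψ) = φR (aeval x F) := by
    intro F
    rw [eval₂_map, hjψ, aeval_def, hom_eval₂]
  -- clearing denominators: every polynomial over `κ` is, up to a nonzero constant of `S`, the
  -- image of a polynomial over `S`
  have hclear : ∀ c : κ[X], ∃ d : S, d ∉ P ∧ ∃ c₀ : S[X], c₀.map ψ = C (ψ d) * c := by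
    intro c
    obtain ⟨d, hd, hdc⟩ :=
      IsLocalization.integerNormalization_spec (nonZeroDivisors (S ⧸ P)) c
    obtain ⟨c₀, hc₀⟩ := Polynomial.map_surjective (Ideal.Quotient.mk P)
      Ideal.Quotient.mk_surjective (IsLocalization.integerNormalization (nonZeroDivisors (S ⧸ P)) c)
    obtain ⟨d₀, rfl⟩ := Ideal.Quotient.mk_surjective d
    refine ⟨d₀, fun h => nonZeroDivisors.ne_zero hd (Ideal.Quotient.eq_zero_iff_mem.mpr h),
      c₀, ?_⟩
    rw [← Polynomial.map_map, hc₀, hdc, Algebra.smul_def]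
    rfl
  -- the minimal polynomial of `xbar` over `κ`
  let _ : Algebra κ L := j.toAlgebra
  have hGx : aeval x G = 0 := (hker G).mpr dvd_rfl
  have hGb : aeval xb (G.map ψ) = 0 := by
    rw [aeval_def]
    change eval₂ j xb (G.map ψ) = 0
    rw [hev, hGx, map_zero]
  set g : κ[X] := minpoly κ xb with hg
  have hgx : eval₂ j xb g = 0 := by
    have := minpoly.aeval κ xb
    rwa [aeval_def] at this
  obtain ⟨u, hu⟩ : g ∣ G.map ψ := minpoly.dvd κ xb hGb
  -- `g` does not divide `u`
  have hux : eval₂ j xb u ≠ 0 := by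
    intro h0
    apply hJ
    rw [← hφR, ← hev, ← derivative_map, hu, derivative_mul, eval₂_add, eval₂_mul, eval₂_mul,
      hgx, h0, mul_zero, zero_mul, add_zero]
  -- `a = A(x)`, and `g ∣ Abar`
  obtain ⟨A, rfl⟩ := hsurj a
  have hAb : aeval xb (A.map ψ) = 0 := by
    rw [aeval_def]
    change eval₂ j xb (A.map ψ) = 0
    rw [hev, (hφR _).mpr ha]
  obtain ⟨c, hc⟩ : g ∣ A.map ψ := minpoly.dvd κ xb hAb
  -- lifts
  obtain ⟨d, hd, u₀, hu₀⟩ := hclear u
  obtain ⟨d', hd', c₀, hc₀⟩ := hclear c
  -- the polynomial `T` with coefficients in `P`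
  set T : S[X] := C d' * (A * u₀) - C d * (G * c₀) with hT
  have hTmap : T.map ψ = 0 := by
    rw [hT, Polynomial.map_sub, Polynomial.map_mul, Polynomial.map_mul, Polynomial.map_mul,
      Polynomial.map_mul, Polynomial.map_C, Polynomial.map_C, hu₀, hc₀, hc, hu]
    ring
  have hTcoeff : ∀ i, T.coeff i ∈ P := by
    intro i
    rw [← hψ, ← coeff_map, hTmap, coeff_zero]
  have hTx : aeval x T = algebraMap S R d' * aeval x u₀ * aeval x A := by
    rw [hT, map_sub, map_mul, map_mul, map_mul, map_mul, hGx, aeval_C, aeval_C]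
    ring
  refine ⟨algebraMap S R d' * aeval x u₀, ?_, ?_⟩
  · intro hb
    rcases Ideal.IsPrime.mem_or_mem ‹Q.IsPrime› hb with h | h
    · exact hd' h
    · rw [← hφR, ← hev, hu₀, eval₂_mul, eval₂_C] at h
      rcases mul_eq_zero.mp h with h1 | h1
      · rw [map_eq_zero, hψ] at h1
        exact hd h1
      · exact hux h1
  · rw [← hTx]
    exact aeval_mem_map_of_coeff_mem x P T hTcoeff

end Fermat.Agent.S34.H60
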