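/-
S34 / Program B' (helper60): monogenic étale extensions of valuation rings do not change the
value group.  Mathlib only.

* `exists_mul_eq_algebraMap_mul` : `V` a valuation ring, `R` a `V`-algebra, `Q` a prime of `R`
  which is unramified over `V` (ideal form) and carries a discrete order function `ν`; then every
  nonzero element of `R` is, up to factors outside `Q`, an element of `V`.
* `exists_nu_eq_of_monogenic` : `F` a field with a "discrete valuation" `ν` and valuation ring
  `W`; `V → F` an integrally closed valuation ring mapping into `W`; `β ∈ W` a root of a monic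
  `h₀ ∈ V[X]` with `h₀'(β)` a unit of `W`.  Then every nonzero element of `V[β]` has the same
  `ν` as an element of `V`.
-/
import Mathlib
import Fermat.Agent.S34.H60.UnramConv

set_option autoImplicit false

open Polynomial

namespace Fermat.Agent.S34.H60

section Abstract

variable {V R : Type*} [CommRing V] [IsDomain V] [ValuationRing V] [CommRing R] [Algebra V R]

/-- Over a valuation ring, an element of an extended ideal `I R` is a multiple of a single
element of `I`. -/
theorem exists_eq_algebraMap_mul_of_mem_map (I : Ideal V) (y : R)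
    (hy : y ∈ Ideal.map (algebraMap V R) I) :
    ∃ π ∈ I, ∃ a₁ : R, y = algebraMap V R π * a₁ := by
  rw [Ideal.map] at hy
  induction hy using Submodule.span_induction with
  | mem y hy =>
    obtain ⟨π, hπ, rfl⟩ := hy
    exact ⟨π, hπ, 1, (mul_one _).symm⟩
  | zero => exact ⟨0, I.zero_mem, 0, (mul_zero _).symm⟩
  | add y z _ _ hy hz =>
    obtain ⟨π₁, hπ₁, a₁, rfl⟩ := hy
    obtain ⟨π₂, hπ₂, a₂, rfl⟩ := hz
    rcases ValuationRing.dvd_total π₁ π₂ with ⟨e, he⟩ | ⟨e, he⟩
    · refine ⟨π₁, hπ₁, a₁ + algebraMap V R e * a₂, ?_⟩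
      rw [he, map_mul, mul_add, mul_assoc]
    · refine ⟨π₂, hπ₂, algebraMap V R e * a₁ + a₂, ?_⟩
      rw [he, map_mul, mul_add, mul_assoc]
  | smul r y _ hy =>
    obtain ⟨π, hπ, a₁, rfl⟩ := hy
    exact ⟨π, hπ, r * a₁, by rw [smul_eq_mul, mul_left_comm]⟩

/-- **Unramified + discrete ⟹ same values.**  If the prime `Q` of the `V`-algebra `R` is
unramified over the valuation ring `V` and `ν` is an order function for `Q`, every nonzero
element of `R` is an element of `V` up to factors outside `Q`. -/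
theorem exists_mul_eq_algebraMap_mul [IsDomain R] (Q : Ideal R) [Q.IsPrime]
    (hunr : ∀ a ∈ Q, ∃ b ∉ Q, b * a ∈ Ideal.map (algebraMap V R) (Q.comap (algebraMap V R)))
    (ν : R → ℕ) (hν : ∀ a b : R, a ≠ 0 → b ≠ 0 → ν (a * b) = ν a + ν b)
    (hQ : ∀ a : R, a ≠ 0 → (a ∈ Q ↔ 0 < ν a)) :
    ∀ a : R, a ≠ 0 → ∃ π : V, ∃ b ∉ Q, ∃ c ∉ Q, b * a = algebraMap V R π * c := by
  have key : ∀ n : ℕ, ∀ a : R, a ≠ 0 → ν a = n →
      ∃ π : V, ∃ b ∉ Q, ∃ c ∉ Q, b * a = algebraMap V R π * c := by
    intro n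
    induction n using Nat.strong_induction_on with
    | _ n ih =>
      intro a ha hn
      have h1Q : (1 : R) ∉ Q := fun h => (Ideal.IsPrime.ne_top ‹Q.IsPrime›)
        ((Ideal.eq_top_iff_one Q).mpr h)
      by_cases hn0 : n = 0
      · have haQ : a ∉ Q := by
          rw [hQ a ha]
          omega
        exact ⟨1, 1, h1Q, a, haQ, by rw [map_one]⟩
      have haQ : a ∈ Q := (hQ a ha).mpr (by omega)
      obtain ⟨b, hbQ, hb⟩ := hunr a haQ
      obtain ⟨π, hπ, a₁, hπa⟩ := exists_eq_algebraMap_mul_of_mem_map _ _ hb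
      have hb0 : b ≠ 0 := fun h0 => hbQ (h0 ▸ Q.zero_mem)
      have hprod0 : algebraMap V R π * a₁ ≠ 0 := by
        rw [← hπa]
        exact mul_ne_zero hb0 ha
      have hπ0 := left_ne_zero_of_mul hprod0
      have ha₁0 := right_ne_zero_of_mul hprod0
      have hπpos : 0 < ν (algebraMap V R π) := (hQ _ hπ0).mp hπ
      have hbν : ν b = 0 := by
        have := (hQ b hb0).not.mp hbQ
        omega
      have hsum : ν b + ν a = ν (algebraMap V R π) + ν a₁ := by
        rw [← hν b a hb0 ha, ← hν _ _ hπ0 ha₁0, hπa]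
      obtain ⟨π₂, b₂, hb₂, c₂, hc₂, h₂⟩ := ih (ν a₁) (by omega) a₁ ha₁0 rfl
      refine ⟨π * π₂, b₂ * b, ?_, c₂, hc₂, ?_⟩
      · intro h
        rcases Ideal.IsPrime.mem_or_mem ‹Q.IsPrime› h with h | h
        · exact hb₂ h
        · exact hbQ h
      · rw [mul_assoc, hπa, mul_left_comm, h₂, map_mul, mul_assoc]
  intro a ha
  exact key (ν a) a ha rfl

end Abstract

section Monogenic

variable {V F : Type*} [CommRing V] [IsDomain V] [ValuationRing V] [IsIntegrallyClosed V]
  [Field F] [Algebra V F]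

/-- **Monogenic étale extensions of valuation rings are unramified.**  `ν` a discrete valuation
of the field `F` with valuation ring `W`, `V → F` an integrally closed valuation ring with image
in `W`, `β ∈ W` a root of the monic `h₀ ∈ V[X]` with `ν (h₀'(β)) = 0`.  Then every nonzero element
of `V[β]` has the same `ν` as an element of `V`. -/
theorem exists_nu_eq_of_monogenic (hinj : Function.Injective (algebraMap V F))
    (W : ValuationSubring F) (ν : F → ℤ)
    (hνmul : ∀ a b : F, a ≠ 0 → b ≠ 0 → ν (a * b) = ν a + ν b)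
    (hνW : ∀ a : F, a ≠ 0 → (a ∈ W ↔ 0 ≤ ν a))
    (hVW : ∀ v : V, algebraMap V F v ∈ W) (β : F) (hβW : β ∈ W)
    (h₀ : V[X]) (hmonic : h₀.Monic) (hroot : aeval β h₀ = 0)
    (hder : aeval β (derivative h₀) ≠ 0) (hder0 : ν (aeval β (derivative h₀)) = 0)
    (p : V[X]) (hp : aeval β p ≠ 0) :
    ∃ π : V, π ≠ 0 ∧ ν (algebraMap V F π) = ν (aeval β p) := by
  classical
  have : Module.IsTorsionFree V F := Module.isTorsionFree_iff_algebraMap_injective.mpr hinj
  have hβint : IsIntegral V β := ⟨h₀, hmonic, by rw [← aeval_def]; exact hroot⟩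
  set G : V[X] := minpoly V β with hG
  let R : Subalgebra V F := Algebra.adjoin V ({β} : Set F)
  let x : R := ⟨β, Algebra.subset_adjoin (Set.mem_singleton _)⟩
  have hcoe : ∀ p : V[X], ((aeval x p : R) : F) = aeval β p := fun p =>
    (Subalgebra.aeval_coe R x p).symm
  have hsurj : Function.Surjective (aeval x : V[X] →ₐ[V] R) := by
    intro r
    have hr : (r : F) ∈ Algebra.adjoin V ({β} : Set F) := r.2
    rw [Algebra.adjoin_singleton_eq_range_aeval] at hr
    obtain ⟨p, hp⟩ := hr
    exact ⟨p, Subtype.ext ((hcoe p).trans hp)⟩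
  have hker : ∀ p : V[X], aeval x p = 0 ↔ G ∣ p := by
    intro p
    constructor
    · intro hp
      have hp' : aeval β p = 0 := by rw [← hcoe, hp]; rfl
      exact minpoly.isIntegrallyClosed_dvd hβint hp'
    · rintro ⟨c, rfl⟩
      apply Subtype.ext
      rw [hcoe, map_mul, hG, minpoly.aeval, zero_mul]
      rfl
  -- `R ⊆ W`
  let Wsub : Subalgebra V F := { W.toSubring with algebraMap_mem' := hVW }
  have hRle : R ≤ Wsub :=
    Algebra.adjoin_le (by
      intro y hy
      rw [Set.mem_singleton_iff] at hy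
      rw [hy]
      exact hβW)
  have hRW : ∀ r : R, (r : F) ∈ W := fun r => hRle r.2
  have hord0 : ∀ r : R, (r : F) ≠ 0 → 0 ≤ ν (r : F) := fun r hr => (hνW _ hr).mp (hRW r)
  -- the prime `Q`
  let ιR : R →+* W := (R.val : R →+* F).codRestrict W.toSubring hRW
  let Q : Ideal R := Ideal.comap ιR (IsLocalRing.maximalIdeal W)
  have hQprime : Q.IsPrime := Ideal.comap_isPrime ιR _
  have hQmem : ∀ r : R, r ≠ 0 → (r ∈ Q ↔ 0 < ν (r : F)) := by
    intro r hr
    have hr' : (r : F) ≠ 0 := fun h0 => hr (Subtype.ext h0)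
    have h1 : r ∈ Q ↔ (r : F) ∈ W.nonunits := by
      rw [ValuationSubring.mem_nonunits_iff_exists_mem_maximalIdeal]
      exact ⟨fun hrQ => ⟨hRW r, hrQ⟩, fun ⟨_, hrQ⟩ => hrQ⟩
    rw [h1, ValuationSubring.mem_nonunits_iff_or]
    have h2 := hνW (r : F)⁻¹ (inv_ne_zero hr')
    have h3 : ν ((r : F)⁻¹) = - ν (r : F) := by
      have h4 := hνmul (r : F) (r : F)⁻¹ hr' (inv_ne_zero hr')
      rw [mul_inv_cancel₀ hr'] at h4
      have h5 : ν (1 : F) = 0 := by
        have := hνmul 1 1 one_ne_zero one_ne_zero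
        rw [mul_one] at this
        omega
      omega
    constructor
    · rintro (h | h)
      · exact absurd h hr'
      · rw [h2] at h
        omega
    · intro h
      right
      rw [h2]
      omega
  -- `G'(β) ∉ Q`
  have hJ : aeval x (derivative G) ∉ Q := by
    obtain ⟨c, hc⟩ : G ∣ h₀ := minpoly.isIntegrallyClosed_dvd hβint hroot
    have hprod : ((aeval x (derivative G) : R) : F) * ((aeval x c : R) : F)
        = aeval β (derivative h₀) := by
      rw [hcoe, hcoe, hc, derivative_mul, map_add, map_mul, map_mul, hG, minpoly.aeval, zero_mul,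
        add_zero]
    have hprod0 : ((aeval x (derivative G) : R) : F) * ((aeval x c : R) : F) ≠ 0 := by
      rw [hprod]
      exact hder
    have h1 := left_ne_zero_of_mul hprod0
    have h2 := right_ne_zero_of_mul hprod0
    have hsum := hνmul _ _ h1 h2
    rw [hprod, hder0] at hsum
    have h3 := hord0 _ h1
    have h4 := hord0 _ h2
    have h1' : aeval x (derivative G) ≠ 0 := fun h0 => h1 (by rw [h0]; rfl)
    rw [hQmem _ h1']
    omega
  have hK4 := unramified_of_derivative_not_mem G x hsurj hker Q hJ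
  -- the order function on `R`
  have hνR : ∀ a b : R, a ≠ 0 → b ≠ 0 →
      (ν ((a * b : R) : F)).toNat = (ν (a : F)).toNat + (ν (b : F)).toNat := by
    intro a b ha hb
    have ha' : (a : F) ≠ 0 := fun h0 => ha (Subtype.ext h0)
    have hb' : (b : F) ≠ 0 := fun h0 => hb (Subtype.ext h0)
    have h1 := hord0 a ha'
    have h2 := hord0 b hb'
    have h3 : ((a * b : R) : F) = (a : F) * (b : F) := rfl
    rw [h3, hνmul _ _ ha' hb']
    omega
  have hQR : ∀ a : R, a ≠ 0 → (a ∈ Q ↔ 0 < (ν (a : F)).toNat) := by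
    intro a ha
    rw [hQmem a ha]
    omega
  have ha0 : aeval x p ≠ 0 := by
    intro h0
    apply hp
    rw [← hcoe, h0]
    rfl
  obtain ⟨π, b, hbQ, c, hcQ, hbc⟩ :=
    exists_mul_eq_algebraMap_mul Q hK4 (fun a : R => (ν (a : F)).toNat) hνR hQR (aeval x p) ha0
  have hb0 : b ≠ 0 := fun h0 => hbQ (h0 ▸ Q.zero_mem)
  have hc0 : c ≠ 0 := fun h0 => hcQ (h0 ▸ Q.zero_mem)
  have hb0' : (b : F) ≠ 0 := fun h0 => hb0 (Subtype.ext h0)
  have hc0' : (c : F) ≠ 0 := fun h0 => hc0 (Subtype.ext h0)
  have heq : (b : F) * aeval β p = algebraMap V F π * (c : F) := by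
    have := congrArg Subtype.val hbc
    rw [← hcoe]
    exact this
  have hπ0' : algebraMap V F π ≠ 0 := by
    intro h0
    rw [h0, zero_mul] at heq
    exact mul_ne_zero hb0' hp heq
  have hπ0 : π ≠ 0 := fun h0 => hπ0' (by rw [h0, map_zero])
  refine ⟨π, hπ0, ?_⟩
  have hbν : ν (b : F) = 0 := by
    have h1 := hord0 b hb0'
    have h2 := (hQmem b hb0).not.mp hbQ
    omega
  have hcν : ν (c : F) = 0 := by
    have h1 := hord0 c hc0'
    have h2 := (hQmem c hc0).not.mp hcQ
    omega
  have h1 := hνmul _ _ hb0' hp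
  have h2 := hνmul _ _ hπ0' hc0'
  rw [heq] at h1
  omega

end Monogenic

end Fermat.Agent.S34.H60
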